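import Fermat.Agent.Attach.Inputs
import Fermat.Agent.LoweringAtP.HeckeCompat.HeckeHolds
import Fermat.Agent.LoweringAtP.Model.Inputs

/-!
# Mazur's principle at `p` for an integral model

Residual modularity at a level `M p`, `p ∤ M`, descends to level `M` once a point of the torsion is
fixed by inertia, or by the inertia stabiliser of the root of an Eisenstein equation with unit
linear coefficient.
-/

noncomputable section

open ModularCurve AlgebraicCurve WeierstrassCurve WeierstrassCurve.Affine.Point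
open scoped WeierstrassCurve.Affine

namespace Fermat.Agent.LoweringAtP.OddPrimes

local notation "Qbar" => AlgebraicClosure ℚ

variable {p : ℕ} [Fact p.Prime]

/-- Some nonzero `p`-torsion point is fixed by inertia at `A`, or by the inertia stabiliser of a
root `t` of an Eisenstein equation `t ^ p = p (a₀ + a₁ t + ...)` with `a₁` a unit. -/
def HasFlatPoint (W : WeierstrassCurve ℤ) (p : ℕ) [Fact p.Prime]
    (A : ValuationSubring (AlgebraicClosure ℚ)) : Prop :=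
  ∃ (x : Submodule.torsionBy ℤ ((W.map (Int.castRingHom ℚ))⁄Qbar).Point (p : ℤ)) (t : A)
    (a : Fin p → A),
    x ≠ 0 ∧ (∀ j, (a j : Qbar) ∈ PeuRamifie.inertiaField A) ∧
    A.valuation (a ⟨0, (Fact.out : p.Prime).pos⟩ : Qbar) = 1 ∧
    (t : Qbar) ^ p = (p : Qbar) * ∑ j, (a j : Qbar) * (t : Qbar) ^ (j : ℕ) ∧
    ((∀ σ ∈ A.inertiaSubgroupIn ℚ, σ • x = x) ∨
      (A.valuation (a ⟨1, (Fact.out : p.Prime).one_lt⟩ : Qbar) = 1 ∧
        ∀ σ ∈ Setup.inertiaStab A (t : Qbar), σ • x = x))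

/-- A level `L` above `M`, prime to `p`, where the model exists and the degree to level `M` is
prime to `p`. -/
def HasLevels (p M : ℕ) : Prop :=
  ∃ L c : ℕ, L ≠ 0 ∧ M ∣ L ∧ Model.NoEll L ∧ ¬ p ∣ L ∧ ¬ p ∣ c ∧
    Igusa.psi (L * p) = c * Igusa.psi (M * p)

/-- Auxiliary levels exist for `p ≥ 5`. -/
theorem hasLevels_of_five_le (hp5 : 5 ≤ p) {M : ℕ} [NeZero M] (hpM : ¬ p ∣ M) : HasLevels p M :=
  by
  obtain ⟨L, c, h1, h2, h3, h4⟩ :=
    Setup.exists_levels (Fact.out : p.Prime) hp5 (NeZero.ne M) hpM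
  exact ⟨L, c, h1, h2, Model.noEll_of_four h3, h4⟩

/-- **Lowering at an odd `p`**, given a flat point at every place over `p`. -/
theorem lowering_of_levels (hp2 : p ≠ 2) {W : WeierstrassCurve ℤ} (hΔ : W.Δ ≠ 0)
    (hirr : W.ModRepIsIrreducible p)
    (hflat : ∀ A : ValuationSubring (AlgebraicClosure ℚ), A.LiesOverPrime p →
      HasFlatPoint W p A)
    {M : ℕ} [NeZero M] (hlev : HasLevels p M) (hmod : W.IsResiduallyModularOfLevel p (M * p)) :
    W.IsResiduallyModularOfLevel p M := by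
  have hp : p.Prime := Fact.out
  obtain ⟨L, c, hL0, hML, hell, hpL, hpc, hc⟩ := hlev
  have : NeZero L := ⟨hL0⟩
  have : NeZero (M * p) := ⟨mul_ne_zero (NeZero.ne M) hp.ne_zero⟩
  obtain ⟨A, hA⟩ := Gal.exists_liesOverPrime hp
  have := Red.charP_residueField A hA
  have := Red.isAlgClosed_residueField A
  let MI := Model.modelInputs L p hpL (Setup.residueAt hA) (Red.genus_le A hpL hA) hell
  obtain ⟨Ins⟩ := Attach.nonempty_jacobianInputs (M * p) p
  obtain ⟨ι, hι, hequiv, htor, heig⟩ :=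
    HeckeCompat.exists_galois_map_of_residuallyModular hp2 hΔ Ins hirr hmod
  obtain ⟨x, t, a, hx, ha, ha0, he, hfix⟩ := hflat A hA
  obtain ⟨H, hH, hcase⟩ : ∃ H : Subgroup (Qbar ≃ₐ[ℚ] Qbar), (∀ σ ∈ H, σ • x = x) ∧
      (H = A.inertiaSubgroupIn ℚ ∨ A.valuation (a ⟨1, hp.one_lt⟩ : Qbar) = 1 ∧
        H = Setup.inertiaStab A (t : Qbar)) :=
    hfix.elim (fun h => ⟨_, h, Or.inl rfl⟩) fun h => ⟨_, h.2, Or.inr ⟨h.1, rfl⟩⟩
  obtain ⟨D, f₀, hD, heig', hf₀, hdiv, hfc⟩ :=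
    Setup.exists_class_of_map ι hι hequiv htor heig hx hH
  exact Setup.levelArgument hML hp2 MI hD hf₀ hdiv ha ha0 he
    (by rcases hcase with rfl | ⟨ha1, rfl⟩; exacts [Or.inl hfc, Or.inr ⟨ha1, hfc⟩])
    (Setup.mem_principal_of_levelMap hML hc hpc hf₀ hdiv)
    fun X hX hoff => HeckeCompat.heckeInputs hp2 hML hpL hc hpc hΔ hirr hA MI hf₀ hdiv heig'
      X hX hoff

/-- A multiplicative model with `p ∣ v_p(Δ)` has a flat point. -/
theorem hasFlatPoint_mult (hp2 : p ≠ 2) {W : WeierstrassCurve ℤ} (hΔ0 : W.Δ ≠ 0)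
    (hΔ : (p : ℤ) ∣ W.Δ) (hc₄ : ¬ (p : ℤ) ∣ W.c₄) (hv : p ∣ padicValInt p W.Δ)
    {A : ValuationSubring (AlgebraicClosure ℚ)} (hA : A.LiesOverPrime p) : HasFlatPoint W p A :=
  Setup.exists_mult_point W hp2 hA hΔ0 hΔ hc₄ hv

end Fermat.Agent.LoweringAtP.OddPrimes
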