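import Fermat.Agent.LoweringAtP.OddPrimes.GoodReduction
import Fermat.Agent.LoweringAtP.OddPrimes.Lowering
import Fermat.Agent.LoweringAtP.PeuRamifie.Eisenstein

/-!
# A flat point at a place of good reduction with a cyclotomic line

If inertia at a good place over `p` acts on a line of the `p`-torsion by the cyclotomic character,
some torsion point is fixed by inertia or by the inertia stabiliser of the root of an Eisenstein
equation with unit linear coefficient.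
-/

noncomputable section

namespace Fermat.Agent.LoweringAtP.OddPrimes

open Polynomial WeierstrassCurve Fermat.Agent.Tate Fermat.Agent.LoweringAtP.PeuRamifie
open scoped WeierstrassCurve.Affine

local notation "Qbar" => AlgebraicClosure ℚ

variable {A : ValuationSubring (AlgebraicClosure ℚ)} {p : ℕ} [hp : Fact p.Prime]
  {W : WeierstrassCurve ℤ}

local notation "v" => A.valuation
set_option quotPrecheck false in
local notation "Pt" => ((WeierstrassCurve.map W (Int.castRingHom ℚ))⁄Qbar).Point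

theorem nsmul_smul_comm (σ : Gal.AbsGal) (n : ℕ) (P : Pt) : σ • (n • P) = n • (σ • P) := by
  rw [Affine.Point.algEquiv_smul_def, map_nsmul, ← Affine.Point.algEquiv_smul_def]

theorem zPar_smul (σ : Gal.AbsGal) (P : Pt) :
    zPar (qbarCurve W) (σ • P : Pt) = σ (zPar (qbarCurve W) P) := by
  rcases P with _ | ⟨x, y, h⟩
  · exact (map_zero σ).symm
  · exact (map_div₀ σ x y).symm

/-- A point fixed by inertia is a flat point. -/
theorem hasFlatPoint_of_fixed (hA : A.LiesOverPrime p)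
    {x : Submodule.torsionBy ℤ Pt (p : ℤ)} (hx : x ≠ 0)
    (h : ∀ σ ∈ A.inertiaSubgroupIn ℚ, σ • x = x) : HasFlatPoint W p A := by
  obtain ⟨t, a, ha, ha0, he⟩ := Setup.exists_root_eq_p (p := p) hA
  exact ⟨x, t, a, hx, ha, ha0, he, Or.inl h⟩

/-- Inertia moves odd torsion at a good place into `E₁`. -/
theorem inE1_smul_sub (hA : A.LiesOverPrime p) (hp2 : p ≠ 2) (hgood : ¬ (p : ℤ) ∣ W.Δ)
    {σ : Gal.AbsGal} (hσ : σ ∈ A.inertiaSubgroupIn ℚ) {R : Pt} (hR : p • R = 0) :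
    InE1 A (W := qbarCurve W) (σ • R - R) := by
  have hint := isInt_qbarCurve A W
  rcases R with _ | ⟨x, y, h⟩
  · change InE1 A (W := qbarCurve W) (σ • (0 : Pt) - 0)
    rw [Affine.Point.algEquiv_smul_def, map_zero, sub_zero]; exact inE1_zero
  have hd := mem_decomposition_of_mem_inertia hσ
  rw [Tate.smul_some]
  rcases lt_or_ge 1 (v x) with hx | hx
  · have hσx : 1 < v (σ x) := by
      rw [← not_le] at hx ⊢
      exact fun h' => hx ((val_le_val_iff hd x 1).1 (by rwa [map_one, map_one]) |>.trans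
        (map_one _).le)
    rw [sub_eq_add_neg]
    exact inE1_add hint (inE1_some.2 hσx) (inE1_neg (inE1_some.2 hx))
  have hy := val_y_le_one hint h.1 hx
  have hu := val_polyY_eq_one hint (inE0_of_good hp.out hA hgood _) hx
    (hp.out.odd_of_ne_two hp2) hR
  rw [← neg_sub]
  exact inE1_neg (inE1_sub_of_congr hint hx (val_le_one_apply hd hx)
    (val_sub_lt_one_of_mem_inertia hσ ((mem_iff A).2 hx))
    (val_sub_lt_one_of_mem_inertia hσ ((mem_iff A).2 hy)) hu)

/-- A point on a line on which inertia acts by the cyclotomic character reduces to the origin. -/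
theorem inE1_of_line (hp2 : p ≠ 2) (hA : A.LiesOverPrime p) (hgood : ¬ (p : ℤ) ∣ W.Δ)
    {xQ : Submodule.torsionBy ℤ Pt (p : ℤ)} {ζ : AlgebraicClosure ℚ} (hζ : IsPrimitiveRoot ζ p)
    (hline : ∀ σ ∈ A.inertiaSubgroupIn ℚ, ∃ c : ℕ, σ • xQ = c • xQ ∧ σ ζ = ζ ^ c) :
    InE1 A (W := qbarCurve W) (xQ : Pt) := by
  have hp3 : 3 ≤ p := lt_of_le_of_ne hp.out.two_le (Ne.symm hp2)
  set Q : Pt := xQ.1
  have hQp : p • Q = 0 := nsmul_torsionBy xQ
  obtain ⟨σ, hσ, hσζ⟩ := exists_inertia_root_eq hp.out hA hζ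
    (hζ.pow_of_coprime 2 ((Nat.coprime_primes Nat.prime_two hp.out).2 (Ne.symm hp2)))
  obtain ⟨c, hc, hcζ⟩ := hline σ hσ
  have hmod : c % p = 2 := hζ.pow_inj (Nat.mod_lt _ hp.out.pos) (by omega) (by
    rw [← hσζ, hcζ]
    conv_rhs => rw [← Nat.mod_add_div c p, pow_add, pow_mul, hζ.pow_eq_one, one_pow, mul_one])
  have h1 := inE1_smul_sub hA hp2 hgood hσ hQp
  have hc' : σ • Q = Q + Q := by
    rw [show σ • Q = c • Q from congrArg Subtype.val hc, nsmul_mod hQp c, hmod, two_nsmul]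
  rwa [hc', add_sub_cancel_right] at h1

/-- Inertia moves a torsion point not reducing to the origin along the line which does. -/
theorem exists_smul_eq_add_nsmul (hp2 : p ≠ 2) (hA : A.LiesOverPrime p) (hΔ0 : W.Δ ≠ 0)
    (hgood : ¬ (p : ℤ) ∣ W.Δ) {xQ : Submodule.torsionBy ℤ Pt (p : ℤ)} (hxQ0 : xQ ≠ 0)
    (hQ1 : InE1 A (W := qbarCurve W) (xQ : Pt)) {xP : Submodule.torsionBy ℤ Pt (p : ℤ)}
    (hP1 : ¬ InE1 A (W := qbarCurve W) (xP : Pt)) :
    ∀ σ ∈ A.inertiaSubgroupIn ℚ, ∃ b : ℕ, σ • (xP : Pt) = (xP : Pt) + b • (xQ : Pt) := by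
  classical
  have hint := isInt_qbarCurve A W
  have := Frey.isElliptic_mapRat hΔ0
  have hne : NeZero p := ⟨hp.out.ne_zero⟩
  have hM : Module.finrank (ZMod p) (Submodule.torsionBy ℤ Pt (p : ℤ)) = 2 :=
    EC.finrank_torsionBy (K := Qbar) (W.map (Int.castRingHom ℚ)) p
      (Nat.cast_ne_zero.2 hp.out.ne_zero)
  have hfinM : Module.Finite (ZMod p) (Submodule.torsionBy ℤ Pt (p : ℤ)) :=
    Module.finite_of_finrank_pos (hM ▸ two_pos)
  let N₀ : AddSubgroup (Submodule.torsionBy ℤ Pt (p : ℤ)) :=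
    { carrier := {z | InE1 A (W := qbarCurve W) (z : Pt)}
      add_mem' := fun ha hb => inE1_add hint ha hb
      zero_mem' := inE1_zero
      neg_mem' := fun ha => inE1_neg ha }
  let N : Submodule (ZMod p) (Submodule.torsionBy ℤ Pt (p : ℤ)) :=
    AddSubgroup.toZModSubmodule p N₀
  have hPN : xP ∉ N := hP1
  have hQN : xQ ∈ N := hQ1
  have hN1 : Module.finrank (ZMod p) N = 1 := by
    have hlt := Submodule.finrank_lt (s := N) fun h => hPN (h ▸ trivial)
    have hpos : 0 < Module.finrank (ZMod p) N :=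
      Module.finrank_pos_iff_exists_ne_zero.2
        ⟨⟨xQ, hQN⟩, fun h => hxQ0 (congrArg Subtype.val h)⟩
    omega
  intro σ hσ
  have hmem : σ • xP - xP ∈ N := inE1_smul_sub hA hp2 hgood hσ (nsmul_torsionBy xP)
  obtain ⟨c, hc⟩ := exists_smul_eq_of_finrank_eq_one hN1 (x := (⟨xQ, hQN⟩ : N))
    (fun h => hxQ0 (congrArg Subtype.val h)) ⟨_, hmem⟩
  refine ⟨c.val, ?_⟩
  have hc' : c.val • xQ = σ • xP - xP := by
    rw [← Nat.cast_smul_eq_nsmul (ZMod p), ZMod.natCast_val, ZMod.cast_id]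
    exact congrArg Subtype.val hc
  have hc'' := congrArg Subtype.val hc'
  simp only [AddSubgroupClass.coe_sub, AddSubmonoidClass.coe_nsmul] at hc''
  exact eq_add_of_sub_eq' hc''.symm

/-- **The flat point at a good place with a cyclotomic line.** -/
theorem hasFlatPoint_of_line (hp2 : p ≠ 2) (hA : A.LiesOverPrime p) (hΔ0 : W.Δ ≠ 0)
    (hgood : ¬ (p : ℤ) ∣ W.Δ) {xQ : Submodule.torsionBy ℤ Pt (p : ℤ)} (hxQ0 : xQ ≠ 0)
    {ζ : AlgebraicClosure ℚ} (hζ : IsPrimitiveRoot ζ p)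
    (hline : ∀ σ ∈ A.inertiaSubgroupIn ℚ, ∃ c : ℕ, σ • xQ = c • xQ ∧ σ ζ = ζ ^ c) :
    HasFlatPoint W p A := by
  classical
  have hp3 : 3 ≤ p := lt_of_le_of_ne hp.out.two_le (Ne.symm hp2)
  have hint := isInt_qbarCurve A W
  have hΔ' : (qbarCurve W).Δ ≠ 0 := by simpa [qbar_Δ] using hΔ0
  set Q : Pt := xQ.1 with hQdef
  have hQp : p • Q = 0 := nsmul_torsionBy xQ
  have hQ0 : Q ≠ 0 := fun h => hxQ0 (Subtype.ext h)
  have hord : addOrderOf Q = p := addOrderOf_eq_prime hQp hQ0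
  have hQ1 : InE1 A (W := qbarCurve W) Q := inE1_of_line hp2 hA hgood hζ hline
  have hhline : ∀ σ ∈ A.inertiaSubgroupIn ℚ, ∃ c : ℕ,
      (∀ d : ℕ, σ (zPar (qbarCurve W) (d • Q : Pt)) = zPar (qbarCurve W) ((d * c) • Q : Pt)) ∧
        σ ζ = ζ ^ c := fun σ hσ => by
    obtain ⟨c, hc, hcζ⟩ := hline σ hσ
    refine ⟨c, fun d => ?_, hcζ⟩
    rw [← zPar_smul, nsmul_smul_comm, show σ • Q = c • Q from congrArg Subtype.val hc, mul_smul]
  set δ := v (zPar (qbarCurve W) Q) with hδdef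
  have hδ : δ ^ (p - 1) = v (p : Qbar) :=
    val_zPar_pow_eq_of hp2 hA hint hQ1 hQ0 hQp hζ hhline
  -- an integral point
  obtain ⟨P, hP, hP1⟩ := exists_torsion_not_inE1 hint hΔ' hp.out hp2 (val_p_pos hp.out hA) hQ1 hQ0
    hQp (fun c h0 hc => val_natCast_eq_one_of_not_dvd hA (Nat.not_dvd_of_pos_of_lt h0 hc)) hδ
  let xP : Submodule.torsionBy ℤ Pt (p : ℤ) :=
    ⟨P, by rw [Submodule.mem_torsionBy_iff, natCast_zsmul]; exact hP⟩
  have hPact : ∀ σ ∈ A.inertiaSubgroupIn ℚ, ∃ b : ℕ, σ • P = P + b • Q :=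
    exists_smul_eq_add_nsmul hp2 hA hΔ0 hgood hxQ0 hQ1 (xP := xP) hP1
  have hnE1 : ∀ a : ℕ, ¬ InE1 A (W := qbarCurve W) (P + a • Q) := fun a h => hP1 (by
    have := inE1_add hint h (inE1_neg (inE1_nsmul hint hQ1 a))
    rwa [add_neg_cancel_right] at this)
  rcases fixed_or_transitive (A.inertiaSubgroupIn ℚ) hQ0 hQp hPact
    (fun σ hσ => (hline σ hσ).imp fun c h => congrArg Subtype.val h.1) with ⟨a, ha⟩ | htrans
  · refine hasFlatPoint_of_fixed hA (x := xP + a • xQ) (fun h => hnE1 a ?_)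
      fun σ hσ => Subtype.ext (ha σ hσ)
    rw [show P + a • Q = ((xP + a • xQ : Submodule.torsionBy ℤ Pt (p : ℤ)) : Pt) from rfl, h]
    exact inE1_zero
  -- the orbit
  rcases hPxy : P with _ | ⟨x, y, hns⟩
  · exact absurd (hPxy ▸ inE1_zero) hP1
  have hx : v x ≤ 1 := not_lt.1 fun h => hP1 (hPxy ▸ inE1_some.2 h)
  have hy := val_y_le_one hint hns.1 hx
  have hu := val_polyY_eq_one hint (inE0_of_good hp.out hA hgood (Affine.Point.some x y hns))
    hx (hp.out.odd_of_ne_two hp2) (hPxy ▸ hP)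
  have hsep : ∀ a b : ℕ, P + a • Q ≠ -(P + b • Q) := fun a b h => by
    have h1 : InE1 A (W := qbarCurve W) (P + P) := by
      have e : P + P = -((a + b) • Q) := by
        rw [add_nsmul]; rw [eq_neg_iff_add_eq_zero] at h ⊢; rw [← h]; abel
      rw [e]; exact inE1_neg (inE1_nsmul hint hQ1 _)
    obtain ⟨k, hk⟩ := hp.out.odd_of_ne_two hp2
    have h2 := inE1_nsmul hint h1 (k + 1)
    rw [← two_nsmul, ← mul_nsmul, show 2 * (k + 1) = p + 1 by omega, add_nsmul, hP, zero_add,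
      one_nsmul] at h2
    exact hP1 h2
  have hxy : ∀ {σ₁ σ₂ : Gal.AbsGal} {a b : ℕ}, σ₁ • P = P + a • Q → σ₂ • P = P + b • Q →
      σ₁ x = σ₂ x → a • Q = b • Q := by
    intro σ₁ σ₂ a b ha hb h
    have e₁ : σ₁ • P = _ := (congrArg (σ₁ • ·) hPxy).trans (Tate.smul_some hns σ₁)
    have e₂ : σ₂ • P = _ := (congrArg (σ₂ • ·) hPxy).trans (Tate.smul_some hns σ₂)
    rw [ha] at e₁
    rw [hb] at e₂
    rcases (Affine.Point.X_eq_iff (h₁ := nonsingular_apply hns σ₁)
      (h₂ := nonsingular_apply hns σ₂)).mp h with e | e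
    · rw [← e₁, ← e₂] at e; exact add_left_cancel e
    · rw [← e₁, ← e₂] at e; exact absurd e (hsep a b)
  have hfix : ∀ σ ∈ A.inertiaSubgroupIn ℚ, σ x = x → σ • P = P := fun σ hσ h => by
    obtain ⟨a, ha⟩ := hPact σ hσ
    have := hxy ha (σ₂ := 1) (b := 0) (by rw [one_smul, zero_nsmul, add_zero])
      (by rw [h, AlgEquiv.one_apply])
    rw [ha, this, zero_nsmul, add_zero]
  have hdiff : ∀ σ ∈ A.inertiaSubgroupIn ℚ, σ x ≠ x → v (σ x - x) = δ := fun σ hσ hne => by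
    obtain ⟨a, ha⟩ := hPact σ hσ
    have hpa : ¬ p ∣ a := fun hdvd => hne (by
      have e₁ : σ • P = _ := (congrArg (σ • ·) hPxy).trans (Tate.smul_some hns σ)
      rw [ha, nsmul_mod hQp a, Nat.mod_eq_zero_of_dvd hdvd, zero_nsmul, add_zero, hPxy,
        Affine.Point.some.injEq] at e₁
      exact e₁.1.symm)
    obtain ⟨x₃, y₃, h₃, e, h13, h23⟩ := val_abscissa_sub_of_congr (h₁ := hns)
      (h₂ := nonsingular_apply hns σ) hint hx
      (val_le_one_apply (mem_decomposition_of_mem_inertia hσ) hx)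
      (val_sub_lt_one_of_mem_inertia hσ ((mem_iff A).2 hx))
      (val_sub_lt_one_of_mem_inertia hσ ((mem_iff A).2 hy)) (Ne.symm hne) hu
    rw [← hPxy, ← Tate.smul_some hns σ, ← hPxy] at e
    have e' : -(a • Q) = Affine.Point.some x₃ y₃ h₃ := by rw [← e, ha]; abel
    have hz : v (zPar (qbarCurve W) (-(a • Q) : Pt)) = δ := by
      rw [hδdef]
      exact val_zPar_neg_nsmul hA hint hQ1 hQ0 hQp hpa
    rw [e'] at hz
    have hsq := val_zPar_sq hint (h := h₃) h13
    rw [hz] at hsq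
    refine (pow_left_inj₀ zero_le zero_le two_ne_zero).1 ?_
    have h0 : v x₃ ≠ 0 := (zero_lt_one.trans h13).ne'
    refine mul_left_cancel₀ h0 (h23.trans ?_)
    rw [mul_comm, hsq]
  choose σa hσa ha using htrans
  have hinj : Set.InjOn (fun a => σa a x) (Finset.range p : Set ℕ) := by
    intro a ha₁ b hb₁ h
    simp only [Finset.coe_range, Set.mem_Iio] at ha₁ hb₁ h
    have h2 := nsmul_eq_nsmul_iff_modEq.mp (hxy (ha a) (ha b) h)
    rw [hord] at h2
    exact h2.eq_of_lt_of_lt ha₁ hb₁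
  have hrepr : ∀ σ ∈ A.inertiaSubgroupIn ℚ, σ x ∈ (Finset.range p).image fun a => σa a x :=
    fun σ hσ => by
    obtain ⟨a, ha'⟩ := hPact σ hσ
    refine Finset.mem_image.2 ⟨a % p, Finset.mem_range.2 (Nat.mod_lt _ hp.out.pos), ?_⟩
    have e : σa (a % p) • P = σ • P := by rw [ha, ha', ← nsmul_mod hQp]
    have e₁ : σ • P = _ := (congrArg (σ • ·) hPxy).trans (Tate.smul_some hns σ)
    have e₂ : σa (a % p) • P = _ :=
      (congrArg (σa (a % p) • ·) hPxy).trans (Tate.smul_some hns (σa (a % p)))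
    rw [e, e₁, Affine.Point.some.injEq] at e₂
    exact e₂.1.symm
  obtain ⟨t, b, hb, hb0, hb1, he, hfixt⟩ := exists_eisenstein_of_orbit hp2 hA hx hδ
    (by rw [Finset.card_image_of_injOn hinj, Finset.card_range]) hrepr
    (fun r hr => by
      obtain ⟨a, -, rfl⟩ := Finset.mem_image.1 hr
      exact ⟨σa a, hσa a, rfl⟩) hdiff
  refine ⟨xP, t, b, fun h => hP1 ?_, hb, hb0, he, Or.inr ⟨hb1, fun σ hσ =>
    Subtype.ext (hfix σ hσ.1 (hfixt σ hσ.1 hσ.2))⟩⟩
  have h' : P = 0 := congrArg Subtype.val h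
  rw [h']
  exact inE1_zero

end Fermat.Agent.LoweringAtP.OddPrimes
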