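import Fermat.Prelude.Def_WeierstrassCurve_PeuRamifiee
import Fermat.Agent.LoweringAtP.OddPrimes.GoodPoint
import Fermat.Agent.LoweringAtP.PeuRamifie.Main
import Fermat.Agent.SquareLevel.GluePush
import Fermat.Agent.TwoComponent.Ordinary.Geo

/-!
# Tools for lowering at a good prime `p`

An eigenvector with a nonzero pushforward to level `M` gives residual modularity of that level, and
a subgroup with the properties of the toric part gives a line on which inertia is cyclotomic.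
-/

noncomputable section

open ModularCurve WeierstrassCurve WeierstrassCurve.Affine.Point
open scoped WeierstrassCurve.Affine

namespace Fermat.Agent.LoweringAtP.OddPrimes

local notation "Qbar" => AlgebraicClosure ℚ

variable {p : ℕ} [hp : Fact p.Prime] {W : WeierstrassCurve ℤ}
  {A : ValuationSubring (AlgebraicClosure ℚ)}

set_option quotPrecheck false in
local notation "Tor" => Submodule.torsionBy ℤ
  ((WeierstrassCurve.map W (Int.castRingHom ℚ))⁄Qbar).Point (p : ℤ)

/-- If a subgroup contains `(σ - 1)(τ - 1)` of every torsion point and inertia acts on it by the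
cyclotomic character, some nonzero point spans a line on which inertia acts by that character. -/
theorem exists_cyclotomic_line (hp2 : p ≠ 2) (hA : A.LiesOverPrime p) (hΔ0 : W.Δ ≠ 0)
    (S : AddSubgroup Tor)
    (hS2 : ∀ σ ∈ A.inertiaSubgroupIn ℚ, ∀ τ ∈ A.inertiaSubgroupIn ℚ, ∀ x : Tor,
      σ • (τ • x - x) - (τ • x - x) ∈ S)
    (hSact : ∀ x ∈ S, ∀ σ ∈ A.inertiaSubgroupIn ℚ, ∀ a : ℕ,
      TwoComponent.Ordinary.ActsByOnRoots p σ a → σ • x = a • x)
    {ζ : AlgebraicClosure ℚ} (hζ : IsPrimitiveRoot ζ p) :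
    ∃ xQ : Tor, xQ ≠ 0 ∧
      ∀ σ ∈ A.inertiaSubgroupIn ℚ, ∃ c : ℕ, σ • xQ = c • xQ ∧ σ ζ = ζ ^ c := by
  classical
  have := Frey.isElliptic_mapRat hΔ0
  have hp3 : 3 ≤ p := lt_of_le_of_ne hp.out.two_le (Ne.symm hp2)
  have hne : NeZero p := ⟨hp.out.ne_zero⟩
  by_cases h : ∀ z ∈ S, z = 0
  · exfalso
    have hM : Module.finrank (ZMod p) Tor = 2 :=
      EC.finrank_torsionBy (K := Qbar) (W.map (Int.castRingHom ℚ)) p
        (Nat.cast_ne_zero.2 hp.out.ne_zero)
    have hfinM : Module.Finite (ZMod p) Tor := Module.finite_of_finrank_pos (hM ▸ two_pos)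
    have hn : Nat.card (rootsOfUnity p Qbar) = p := IsAlgClosed.card_rootsOfUnity_eq Qbar p
    obtain ⟨σ, hσ, hσζ⟩ := PeuRamifie.exists_inertia_root_eq hp.out hA hζ
      (hζ.pow_of_coprime 2 ((Nat.coprime_primes Nat.prime_two hp.out).2 (Ne.symm hp2)))
    set f := (galoisRep (S := ℚ) (K := Qbar) (W.map (Int.castRingHom ℚ)) p σ).toLinearMap
    have hf : ∀ x : Tor, f x = σ • x := fun x => rfl
    have hfT : ∀ x : Tor, f (f x - x) = f x - x := fun x => by
      have := h _ (hS2 σ hσ σ hσ x)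
      rw [hf, hf, ← sub_eq_zero]
      exact this
    have hdet : LinearMap.det f = 1 := by
      by_cases hid : ∀ x : Tor, f x = x
      · rw [LinearMap.ext (g := LinearMap.id) hid, LinearMap.det_id]
      push Not at hid
      obtain ⟨x₀, hx₀⟩ := hid
      refine Gal.det_eq_of_line (x := x₀) (N := Submodule.span (ZMod p) {f x₀ - x₀}) (a := 1)
        (b := 1) hM
        (Submodule.mem_span_singleton_self _) (sub_ne_zero.2 hx₀) (fun hmem => hx₀ ?_) f ?_ ?_
      · obtain ⟨c, hc⟩ := Submodule.mem_span_singleton.1 hmem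
        rw [← hc, map_smul, hfT]
      · rw [one_smul]; exact hfT x₀
      · rw [one_smul, sub_add_cancel]
    have hχ := congrArg Units.val (EC.galoisRepDetEqCyclotomic (W.map (Int.castRingHom ℚ)) p hn σ)
    rw [galoisRepDet_apply, LinearEquiv.coe_det, hdet] at hχ
    let u : rootsOfUnity p Qbar := rootsOfUnity.mkOfPowEq ζ hζ.pow_eq_one
    have hspec := modularCyclotomicCharacter.spec Qbar hn (σ : Qbar ≃+* Qbar) u.2
    rw [← hχ, ZMod.val_one] at hspec
    change σ ζ = ζ ^ 1 at hspec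
    rw [hσζ] at hspec
    have := hζ.pow_inj (by omega) (by omega) hspec
    omega
  push Not at h
  obtain ⟨z, hz, hz0⟩ := h
  refine ⟨z, hz0, fun σ hσ => ?_⟩
  obtain ⟨c, -, hc⟩ := hζ.eq_pow_of_pow_eq_one (ξ := σ ζ)
    (by rw [← map_pow, hζ.pow_eq_one, _root_.map_one])
  refine ⟨c, hSact z hz σ hσ c fun w hw => ?_, hc.symm⟩
  obtain ⟨i, -, rfl⟩ := hζ.eq_pow_of_pow_eq_one hw
  rw [map_pow, ← hc, ← pow_mul, ← pow_mul, mul_comm]

/-- An eigenvector of level `M p` with nonzero image under an equivariant map to level `M` gives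
residual modularity of level `M`. -/
theorem residuallyModular_of_push (hΔ0 : W.Δ ≠ 0) {M : ℕ} [NeZero M] [NeZero (M * p)]
    (f : JZero (M * p) →+ JZero M)
    (hf : ∀ (σ : AlgebraicClosure ℚ ≃ₐ[ℚ] AlgebraicClosure ℚ) z, f (σ • z) = σ • f z)
    {x : JZero (M * p)} (hx : p • x = 0) (hfx : f x ≠ 0)
    (heig : ∀ ℓ : Nat.Primes, (ℓ : ℕ) ∉ HeckeCompat.badSet (M * p) p W →
      heckeOperatorBar (M * p) ℓ x = W.apOfModel ℓ • x) :
    W.IsResiduallyModularOfLevel p M := by
  obtain ⟨I⟩ := Attach.nonempty_jacobianInputs (M * p) p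
  obtain ⟨J⟩ := Attach.nonempty_jacobianInputs M p
  refine HeckeCompat.residuallyModular_of_eigen J hΔ0 hfx (by rw [← map_nsmul, hx, _root_.map_zero])
    (S := HeckeCompat.badSet (M * p) p W) fun ℓ hℓ => ?_
  obtain ⟨-, hN, hℓp⟩ := HeckeCompat.good_of_not_mem_badSet hΔ0 ℓ.2 hℓ
  have hp' : ¬ (ℓ : ℕ) ∣ p := fun h => hℓp ((Nat.prime_dvd_prime_iff_eq ℓ.2 hp.out).mp h)
  have hcomm := SquareLevel.map_heckeOperatorBar I.galois J.galois f hf ℓ
    (fun h => (ℓ.2.dvd_mul.mp h).elim hN hp')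
    (fun h => (ℓ.2.dvd_mul.mp h).elim (fun h' => hN (h'.trans (dvd_mul_right M p))) hp')
    (n := 1) x (by rwa [pow_one])
  rw [← hcomm, heig ℓ hℓ, map_zsmul]

end Fermat.Agent.LoweringAtP.OddPrimes
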