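import Fermat.Agent.EC.XMul
import Fermat.Agent.LoweringAtP.PeuRamifie.NodePoint
import Fermat.Agent.Tate.Smooth

/-!
# Torsion at a place of good reduction

Chord and congruence lemmas at a place of good reduction, and: if the `p`-torsion contains a line
near the origin at distance `δ`, `δ ^ (p - 1) = |p|`, then some `p`-torsion point is integral.
-/

noncomputable section

namespace Fermat.Agent.LoweringAtP.OddPrimes

open Polynomial WeierstrassCurve Fermat.Agent.Tate

section Den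

variable {R : Type*} [CommRing R]

/-- At odd `n` the denominator of `x (n • P)` is a square. -/
theorem exists_den_eq_sq (W : WeierstrassCurve R) {m : ℕ} (hm : 1 ≤ m) :
    ∃ g : R[X], EC.den W (2 * m + 1) = g ^ 2 ∧ g.natDegree ≤ 2 * m ^ 2 + 2 * m ∧
      g.coeff (2 * m ^ 2 + 2 * m) = ((2 * m + 1 : ℕ) : R) := by
  obtain ⟨hN, hD⟩ := EC.degCoeff_xMul W hm
  obtain ⟨hN', hD'⟩ := EC.degCoeff_xMul W (show 1 ≤ m + 1 by omega)
  have h1 : 1 ≤ m ^ 2 := Nat.one_le_pow 2 m hm
  have e : (m + 1) ^ 2 = m ^ 2 + 2 * m + 1 := by ring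
  have hg := ((hN.mul hD').of_eq (e := 2 * m ^ 2 + 2 * m) (by omega) rfl).sub
    ((hD.mul hN').of_eq (e := 2 * m ^ 2 + 2 * m) (by omega) rfl)
  refine ⟨_, ?_, hg.1, hg.2.trans (by push_cast; ring)⟩
  rw [EC.den, EC.xMul_two_mul_add_one, EC.diffPair]
  simp only [EC.num, EC.den]
  ring

end Den

variable {K : Type*} [Field K] [DecidableEq K] {A : ValuationSubring K}
  {W : WeierstrassCurve.Affine K}

local notation "v" => A.valuation

/-- A point of odd order outside `E₁` has unit `Y`-derivative. -/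
theorem val_polyY_eq_one (hW : IsInt A W) {x y : K} {h : W.Nonsingular x y}
    (hP : InE0 A (Affine.Point.some x y h)) (hx : v x ≤ 1) {p : ℕ} (hp : Odd p)
    (htor : p • Affine.Point.some x y h = 0) : v (2 * y + W.a₁ * x + W.a₃) = 1 := by
  refine le_antisymm (val_polyY_le_one hW hx (val_y_le_one hW h.1 hx)) (not_lt.1 fun hlt => ?_)
  have hX : v (W.a₁ * y - (3 * x ^ 2 + 2 * W.a₂ * x + W.a₄)) = 1 := by
    rcases inE0_some.1 hP with h0 | h0 | h0
    · exact absurd h0 (not_lt.2 hx)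
    · exact h0
    · exact absurd h0 hlt.ne
  have h2 := inE1_nsmul hW (inE1_add_self_of_polyY hW (h := h) hx hX hlt)
  obtain ⟨k, rfl⟩ := hp
  have e : (k + 1) • (Affine.Point.some x y h + Affine.Point.some x y h) =
      Affine.Point.some x y h := by
    rw [← two_nsmul, ← mul_nsmul, show 2 * (k + 1) = 2 * k + 1 + 1 by ring, add_nsmul, htor,
      zero_add, one_nsmul]
  exact absurd (inE1_some.1 (e ▸ h2 (k + 1))) (not_lt.2 hx)

/-- The difference of two congruent integral points is at distance `|x₂ - x₁|`. -/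
theorem val_abscissa_sub_of_congr (hW : IsInt A W) {x₁ x₂ y₁ y₂ : K} {h₁ : W.Nonsingular x₁ y₁}
    {h₂ : W.Nonsingular x₂ y₂} (hx₁ : v x₁ ≤ 1) (hx₂ : v x₂ ≤ 1) (hx : v (x₂ - x₁) < 1)
    (hy : v (y₂ - y₁) < 1) (hne : x₁ ≠ x₂) (hu : v (2 * y₁ + W.a₁ * x₁ + W.a₃) = 1) :
    ∃ (x₃ y₃ : K) (h₃ : W.Nonsingular x₃ y₃),
      Affine.Point.some x₁ y₁ h₁ - Affine.Point.some x₂ y₂ h₂ = Affine.Point.some x₃ y₃ h₃ ∧
        1 < v x₃ ∧ v x₃ * v (x₂ - x₁) ^ 2 = 1 := by
  rw [sub_eq_add_neg, Affine.Point.neg_some]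
  rcases add_cases h₁ ((Affine.nonsingular_neg ..).2 h₂) with
    ⟨hxx, -, -⟩ | ⟨x₃, y₃, l, m, h₃, -, hl, -, hc, hs⟩
  · exact absurd hxx hne
  refine ⟨x₃, _, h₃, hs, ?_⟩
  have hnum : v (y₁ - W.negY x₂ y₂) = 1 := by
    rw [show y₁ - W.negY x₂ y₂ = (2 * y₁ + W.a₁ * x₁ + W.a₃)
      + ((y₂ - y₁) + W.a₁ * (x₂ - x₁)) by rw [Affine.negY]; ring,
      Valuation.map_add_eq_of_lt_left _ ?_, hu]
    rw [hu]; exact Valuation.map_add_lt _ hy (val_mul_lt_of_lt A hW.h₁ hx)
  have hpos : 0 < v (x₂ - x₁) :=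
    zero_lt_iff.2 ((Valuation.ne_zero_iff _).2 (sub_ne_zero.2 (Ne.symm hne)))
  have hvl : v l = 1 / v (x₂ - x₁) := by
    rw [hl, Affine.slope_of_X_ne hne, map_div₀, hnum, show x₁ - x₂ = -(x₂ - x₁) by ring,
      Valuation.map_neg]
  have hl1 : 1 < v l := by rw [hvl]; exact (one_lt_div₀ hpos).2 hx
  have hl2 : v l < v (l ^ 2) := by rw [map_pow]; exact lt_self_pow₀ hl1 one_lt_two
  have hl21 : 1 < v (l ^ 2) := hl1.trans hl2
  have hlow : v (W.a₁ * l - W.a₂ - x₁ - x₂) < v (l ^ 2) := by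
    refine Valuation.map_sub_lt _ (Valuation.map_sub_lt _ (Valuation.map_sub_lt _
      (lt_of_le_of_lt (val_mul_le_of_le A hW.h₁ le_rfl) hl2) (hW.h₂.trans_lt hl21))
      (hx₁.trans_lt hl21)) (hx₂.trans_lt hl21)
  have hx3 : v x₃ = v l ^ 2 := by
    rw [show x₃ = l ^ 2 + (W.a₁ * l - W.a₂ - x₁ - x₂) by linear_combination hc.e1,
      Valuation.map_add_eq_of_lt_left _ hlow, map_pow]
  refine ⟨hx3 ▸ one_lt_pow₀ hl1 two_ne_zero, ?_⟩
  rw [hx3, hvl, ← mul_pow, div_mul_cancel₀ _ hpos.ne', one_pow]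

/-- Some `p`-torsion point is integral when a line near the origin is at distance `δ`,
`δ ^ (p - 1) = |p|`. -/
theorem exists_torsion_not_inE1 [IsAlgClosed K] (hW : IsInt A W) (hΔ : W.Δ ≠ 0) {p : ℕ}
    (hp : p.Prime) (hp2 : p ≠ 2) (hpv0 : 0 < v (p : K))
    {Q : W.Point} (hQ1 : InE1 A Q) (hQ0 : Q ≠ 0) (hQp : p • Q = 0)
    (hcu : ∀ c : ℕ, 0 < c → c < p → v (c : K) = 1)
    (hδ : v (zPar W Q) ^ (p - 1) = v (p : K)) :
    ∃ P : W.Point, p • P = 0 ∧ ¬ InE1 A P := by
  classical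
  by_contra hall
  push Not at hall
  obtain ⟨m, hm⟩ := hp.odd_of_ne_two hp2
  subst hm
  have hm1 : 1 ≤ m := by have := hp.two_le; omega
  let W₀ : WeierstrassCurve A :=
    ⟨⟨_, (mem_iff A).2 hW.h₁⟩, ⟨_, (mem_iff A).2 hW.h₂⟩, ⟨_, (mem_iff A).2 hW.h₃⟩,
      ⟨_, (mem_iff A).2 hW.h₄⟩, ⟨_, (mem_iff A).2 hW.h₆⟩⟩
  have hmap : W₀.map A.subtype = W := by ext <;> rfl
  obtain ⟨g₀, hsq, hdeg₀, hcoeff₀⟩ := exists_den_eq_sq W₀ hm1
  set g : K[X] := g₀.map A.subtype with hg
  have hden : EC.den W (2 * m + 1) = g ^ 2 := by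
    rw [← hmap, EC.den_map, hsq, Polynomial.map_pow]
  set p := 2 * m + 1 with hpdef
  have hpK : (p : K) ≠ 0 := (Valuation.ne_zero_iff _).1 hpv0.ne'
  have hcoeff : g.coeff (2 * m ^ 2 + 2 * m) = (p : K) := by
    rw [hg, coeff_map, hcoeff₀, map_natCast]
  have hdeg : g.natDegree = 2 * m ^ 2 + 2 * m :=
    le_antisymm (natDegree_map_le.trans hdeg₀) (le_natDegree_of_ne_zero (hcoeff ▸ hpK))
  have hg0 : g ≠ 0 := fun h => hpK (by rw [← hcoeff, h, coeff_zero])
  have hroot : ∀ r ∈ g.roots, 1 < v r := by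
    intro r hr
    have hr0 : (EC.den W p).eval r = 0 := by
      rw [hden, eval_pow, isRoot_of_mem_roots hr, zero_pow two_ne_zero]
    obtain ⟨y, hy⟩ := IsAlgClosed.exists_root
      (C 1 * X ^ 2 + C (W.a₁ * r + W.a₃) * X +
        C (-(r ^ 3 + W.a₂ * r ^ 2 + W.a₄ * r + W.a₆))) (by
      rw [degree_quadratic one_ne_zero]; norm_num)
    have heq : W.Equation r y := by
      rw [Affine.equation_iff]
      simp only [IsRoot.def, eval_add, eval_mul, eval_pow, eval_X, eval_C] at hy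
      linear_combination hy
    have hns := (Affine.equation_iff_nonsingular_of_Δ_ne_zero hΔ).mp heq
    exact inE1_some.1 (hall _ ((EC.nsmul_eq_zero_iff hns p).2 hr0))
  -- the abscissae of the line
  have hne : ∀ c ∈ Finset.Icc 1 m, ∃ xc yc hc, c • Q = Affine.Point.some xc yc hc ∧
      v xc * v (zPar W Q) ^ 2 = 1 ∧ xc ∈ g.roots := by
    intro c hc
    rw [Finset.mem_Icc] at hc
    have h1 := inE1_nsmul hW hQ1 c
    have hv := PeuRamifie.val_zPar_nsmul hW hQ1 hQ0 (hcu c (by omega) (by omega))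
    have hcQ : p • (c • Q) = 0 := by rw [smul_comm, hQp, smul_zero]
    rcases hR : c • Q with _ | ⟨xc, yc, hcns⟩
    · exfalso
      have hord : addOrderOf Q = p := by
        have : Fact p.Prime := ⟨hp⟩
        exact addOrderOf_eq_prime hQp hQ0
      have hd := addOrderOf_dvd_of_nsmul_eq_zero hR
      rw [hord] at hd
      exact absurd (Nat.le_of_dvd (by omega) hd) (by omega)
    rw [hR] at h1 hv hcQ
    refine ⟨xc, yc, hcns, rfl, ?_, ?_⟩
    · rw [← hv, mul_comm]; exact val_zPar_sq hW (inE1_some.1 h1)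
    · rw [mem_roots hg0, IsRoot]
      have h := (EC.nsmul_eq_zero_iff hcns p).1 hcQ
      rw [hden, eval_pow] at h
      exact (pow_eq_zero_iff two_ne_zero).1 h
  choose! X₀ Y₀ hN hR hval hmem using hne
  set S : Finset K := (Finset.Icc 1 m).image X₀ with hS
  have hinj : Set.InjOn X₀ (Finset.Icc 1 m : Set ℕ) := by
    intro c hc d hd hcd
    have hc' := Finset.mem_coe.1 hc
    have hd' := Finset.mem_coe.1 hd
    have h := (Affine.Point.X_eq_iff (h₁ := hN c hc') (h₂ := hN d hd')).1 hcd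
    rw [← hR c hc', ← hR d hd'] at h
    have : Fact p.Prime := ⟨hp⟩
    have hord : addOrderOf Q = p := addOrderOf_eq_prime hQp hQ0
    rw [Finset.mem_Icc] at hc' hd'
    rcases h with h | h
    · have h2 := nsmul_eq_nsmul_iff_modEq.mp h
      rw [hord] at h2
      exact h2.eq_of_lt_of_lt (by omega) (by omega)
    · rw [eq_neg_iff_add_eq_zero, ← add_nsmul] at h
      have hdvd := addOrderOf_dvd_of_nsmul_eq_zero h
      rw [hord] at hdvd
      exact absurd (Nat.le_of_dvd (by omega) hdvd) (by omega)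
  have hSc : S.card = m := by rw [Finset.card_image_of_injOn hinj, Nat.card_Icc]; omega
  have hSle : S.val ≤ g.roots := by
    refine (Multiset.le_iff_subset S.nodup).2 fun r hr => ?_
    obtain ⟨c, hc, rfl⟩ := Finset.mem_image.1 (show r ∈ S from hr)
    exact hmem c hc
  obtain ⟨rest, hrest⟩ := Multiset.le_iff_exists_add.1 hSle
  have hSprod : (S.val.map fun r => v r).prod * v (p : K) = 1 := by
    rw [Finset.prod_map_val, hS, Finset.prod_image hinj, ← hδ,
      show p - 1 = 2 * (Finset.Icc 1 m).card by rw [Nat.card_Icc]; omega, pow_mul,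
      ← Finset.prod_const, ← Finset.prod_mul_distrib]
    exact Finset.prod_eq_one hval
  have hrest1 : 1 < (rest.map fun r => v r).prod := by
    have hcard : rest.card ≠ 0 := by
      have h := congrArg Multiset.card hrest
      rw [Multiset.card_add, ← (IsAlgClosed.splits g).natDegree_eq_card_roots, hdeg,
        show Multiset.card S.val = S.card from rfl, hSc] at h
      nlinarith
    obtain ⟨r, rest', rfl⟩ : ∃ r rest', rest = r ::ₘ rest' := by
      obtain ⟨r, hr⟩ := Multiset.card_pos_iff_exists_mem.1 (Nat.pos_of_ne_zero hcard)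
      exact ⟨r, Multiset.exists_cons_of_mem hr⟩
    rw [Multiset.map_cons, Multiset.prod_cons]
    refine lt_mul_of_lt_of_one_le (hroot r (by rw [hrest]; simp)) ?_
    refine Multiset.one_le_prod fun z hz => ?_
    obtain ⟨s, hs, rfl⟩ := Multiset.mem_map.1 hz
    exact (hroot s (by rw [hrest]; simp [hs])).le
  -- the constant coefficient
  have h0 : v (g.coeff 0) ≤ 1 := by
    rw [hg, coeff_map]
    exact (A.valuation_le_one_iff _).2 (g₀.coeff 0).2
  have hfac := congrArg (fun f : K[X] => v (f.eval 0)) (IsAlgClosed.splits g).eq_prod_roots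
  simp only [eval_mul, eval_C, eval_multiset_prod, Multiset.map_map, map_mul,
    map_multiset_prod, Function.comp_def, eval_sub, eval_X, zero_sub, Valuation.map_neg] at hfac
  rw [← coeff_zero_eq_eval_zero, leadingCoeff, hdeg, hcoeff, hrest, Multiset.map_add,
    Multiset.prod_add, ← mul_assoc, mul_comm (v (p : K)), hSprod, one_mul] at hfac
  exact absurd (hfac ▸ h0) (not_le.2 hrest1)

end Fermat.Agent.LoweringAtP.OddPrimes
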